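import Fermat.Agent.RT.LowerP.EigenSpace
import Fermat.Agent.RT.MazurP.LocalE
import Fermat.Agent.RT.Core.Forms
import Fermat.Agent.Deform.Burnside

/-!
# The residual subgroup of a residually modular curve

The matrices of `E[p]` and a stable subgroup of `J₀(L)[p]` on which they act, for a model `W`
residually modular of level `L`.
-/

set_option autoImplicit false

noncomputable section

open WeierstrassCurve Polynomial
open ModularCurve

namespace Fermat.Agent.RT.LowerPW

open Fermat.Agent.RT.LowerP (ResData eigenPart exists_eigen_class exists_residual_subgroup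
  quad_eigenPart)
open Fermat.Agent.RT.MazurP (tameKer wildKer mem_tameKer mem_wildKer)
open Fermat.Agent.EC.AtP (PointQBar)
open Arith (QBar GQ)
open Arith (cyclotomicHom cyclotomicHom_apply)

/-- The good primes away from `p` and `L`. -/
def Good (W : WeierstrassCurve ℤ) (p L l : ℕ) : Prop := ¬ l ∣ L * p ∧ W.IsGoodPrimeFor l

/-- The eigenvalues. -/
abbrev ap (W : WeierstrassCurve ℤ) (l : ℕ) : ℤ := W.apOfModel l

theorem good_ne {W : WeierstrassCurve ℤ} {p L l : ℕ} (h : Good W p L l) : l ≠ p :=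
  fun e => h.1 (e ▸ dvd_mul_left _ _)

/-- The primes outside a finite set are good. -/
theorem good_of_not_mem {W : WeierstrassCurve ℤ} {p L : ℕ} (hΔ : W.Δ ≠ 0) (hp : p ≠ 0)
    (hL : L ≠ 0) : ∀ l, l.Prime → l ∉ (L * p * W.Δ.natAbs).primeFactors → Good W p L l := by
  intro l hl hlS
  have hne : L * p * W.Δ.natAbs ≠ 0 :=
    mul_ne_zero (mul_ne_zero hL hp) (Int.natAbs_ne_zero.mpr hΔ)
  exact ⟨fun h => hlS (Nat.mem_primeFactors.mpr ⟨hl, h.mul_right _, hne⟩), fun h =>
    hlS (Nat.mem_primeFactors.mpr ⟨hl, (Int.natCast_dvd.mp h).mul_left _, hne⟩)⟩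

variable {W : WeierstrassCurve ℤ} {p : ℕ} [Fact p.Prime] (hΔ : W.Δ ≠ 0)

/-- A basis of the `p`-torsion. -/
def curveBasis : Module.Basis (Fin 2) (ZMod p) (EC.Rep.residualRep W p hΔ).V :=
  Module.finBasisOfFinrankEq _ _ (EC.Rep.residualRep W p hΔ).finrank_eq

/-- The matrices of the representation on the `p`-torsion. -/
def curveMat : GQ →* Matrix (Fin 2) (Fin 2) (ZMod p) :=
  (LinearMap.toMatrixAlgEquiv (curveBasis hΔ)).toMonoidHom.comp (EC.Rep.residualRep W p hΔ).ρ

/-- The trace of the matrices is that of the residual representation. -/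
theorem trace_curveMat (σ : GQ) : (curveMat hΔ σ : Matrix _ _ (ZMod p)).trace =
    LinearMap.trace (ZMod p) _ ((EC.Rep.residualRep W p hΔ).ρ σ) :=
  (LinearMap.trace_eq_matrix_trace _ (curveBasis hΔ) _).symm

/-- The determinant of the matrices is the cyclotomic character. -/
theorem det_curveMat (σ : GQ) :
    (curveMat hΔ σ : Matrix _ _ (ZMod p)).det = (cyclotomicHom p σ : ZMod p) := by
  show (LinearMap.toMatrix (curveBasis hΔ) (curveBasis hΔ)
    ((EC.Rep.residualRep W p hΔ).ρ σ)).det = _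
  rw [LinearMap.det_toMatrix (curveBasis hΔ),
    EC.Rep.det_residualRep _ (IsAlgClosed.card_rootsOfUnity_eq _ p), cyclotomicHom_apply]

theorem curveMat_eq_one_of_fixed {σ : GQ}
    (h : ∀ x : PointQBar W, (p : ℤ) • x = 0 → σ • x = x) :
    (curveMat hΔ σ : Matrix _ _ (ZMod p)) = 1 := by
  have e : (EC.Rep.residualRep W p hΔ).ρ σ = 1 := LinearMap.ext fun x => Subtype.ext
    (h x.1 ((Submodule.mem_torsionBy_iff _ _).mp x.2))
  show LinearMap.toMatrixAlgEquiv (curveBasis hΔ) ((EC.Rep.residualRep W p hΔ).ρ σ) = 1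
  rw [e, map_one]

variable (hp2 : p ≠ 2) (hirr : W.ModRepIsIrreducible p)

/-- The residual data. -/
def curveData (L : ℕ) : ResData p (Good W p L) (ap W) where
  r := curveMat hΔ
  span := Deform.span_matrix_eq_top _ (EC.Rep.isAbsolutelyIrreducible_residualRep _ hp2 hirr)
    (curveBasis hΔ)
  finite := by
    obtain ⟨K, hK, hρ⟩ := (EC.Rep.residualRep W p hΔ).factorsThroughFiniteLevel
    exact ⟨K, hK, fun σ hσ => by
      show LinearMap.toMatrixAlgEquiv (curveBasis hΔ) ((EC.Rep.residualRep W p hΔ).ρ σ) = 1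
      rw [hρ σ hσ, map_one]⟩
  frob := fun l hl hGl B hB σ hσ => by
    have h := EC.Rep.charpoly_residualRep_frobenius hΔ hl hGl.2 (good_ne hGl) hB hσ
    rw [EC.FrobTrace.charpoly_of_finrank_eq_two (EC.Rep.residualRep W p hΔ).finrank_eq] at h
    have h0 := congrArg (fun f => Polynomial.coeff f 0) h
    have h1 := congrArg (fun f => Polynomial.coeff f 1) h
    refine ⟨?_, ?_⟩
    · rw [trace_curveMat]; simpa [coeff_X_pow] using h1
    · show (LinearMap.toMatrix (curveBasis hΔ) (curveBasis hΔ)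
        ((EC.Rep.residualRep W p hΔ).ρ σ)).det = _
      rw [LinearMap.det_toMatrix (curveBasis hΔ)]
      simpa [coeff_X_pow] using h0

include hΔ hp2 hirr in
/-- Some good prime has `l + 1 ≢ a_l`. -/
theorem exists_ap_ne {L : ℕ} (hL : L ≠ 0) :
    ∃ l, l.Prime ∧ Good W p L l ∧ ¬ (p : ℤ) ∣ (l : ℤ) + 1 - ap W l := by
  obtain ⟨l, hl, hlS, -, -, hne⟩ := EC.Rep.exists_apOfModel_ne hp2 hirr hΔ
    (L * p * W.Δ.natAbs).primeFactors
  refine ⟨l, hl, good_of_not_mem hΔ (Fact.out : p.Prime).ne_zero hL l hl hlS, fun h => hne ?_⟩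
  have := (ZMod.intCast_zmod_eq_zero_iff_dvd _ p).mpr h
  push_cast [ap] at this
  linear_combination -this

variable {G : ℕ → Prop} {a : ℕ → ℤ}

/-- A stable subgroup of `J₀(L)[p]` on which residual data act. -/
structure ResSubgroup (D : ResData p G a) (L : ℕ) [NeZero L] where
  /-- The group. -/
  U : AddSubgroup (JZero L)
  torsion : ∀ x ∈ U, p • x = 0
  eigen : ∀ x ∈ U, ∀ (l : ℕ) (hl : l.Prime), G l →
    heckeOperatorBar L ⟨l, hl⟩ x = a l • x
  ne_bot : ∃ x ∈ U, x ≠ 0
  stable : ∀ σ : GQ, ∀ x ∈ U, σ • x ∈ U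
  ker : ∀ σ : GQ, D.r σ = 1 → ∀ x ∈ U, σ • x = x
  nonscalar : ∀ σ : GQ, (∀ c : ZMod p, D.r σ ≠ c • 1) → ∀ c : ℕ, ∃ x ∈ U, σ • x ≠ c • x
  quad : ∀ σ : GQ, ∀ x ∈ U,
    σ • σ • x - (D.r σ).trace.val • σ • x + (D.r σ).det.val • x = 0

include hΔ in
/-- A curve residually modular of level `L` gives a residual subgroup in `J₀(L)`. -/
theorem exists_resSubgroup {L : ℕ} [NeZero L] (hmod : W.IsResiduallyModularOfLevel p L) :
    Nonempty (ResSubgroup (curveData hΔ hp2 hirr L) L) := by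
  classical
  set S := (L * p * W.Δ.natAbs).primeFactors with hSdef
  have hne : L * p * W.Δ.natAbs ≠ 0 := mul_ne_zero (mul_ne_zero (NeZero.ne L)
    (Fact.out : p.Prime).ne_zero) (Int.natAbs_ne_zero.mpr hΔ)
  obtain ⟨g, hg, φ, hφ⟩ := Core.isCongruentLevel_of_residuallyModular (k := ZMod p) (S := S)
    (fun l hl h => by
      refine Nat.mem_primeFactors.mpr ⟨hl, ?_, hne⟩
      rcases h with h | h | h
      · exact (dvd_mul_of_dvd_right h.dvd _).mul_right _
      · exact (h.mul_right _).mul_right _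
      · exact (Int.natCast_dvd.mp h).mul_left _) hmod
  have : CharP (AlgebraicClosure (ZMod p)) p :=
    charP_of_injective_algebraMap (algebraMap (ZMod p) _).injective p
  obtain ⟨θ, hθ⟩ := GaloisReps.exists_eigenform_character hg
  have hG : ∀ l, l.Prime → Good W p L l → ¬ l ∣ L ∧ l ∉ (∅ : Finset ℕ) := fun l _ hGl =>
    ⟨fun hd => hGl.1 (dvd_mul_of_dvd_left hd _), Finset.notMem_empty l⟩
  obtain ⟨x, hx0, hpx, hx⟩ := exists_eigen_class (p := p) (L := L) ∅
    (φ.comp (θ.comp (GaloisReps.toFull (↑(∅ : Finset ℕ) : Set ℕ)).toRingHom)) (Good W p L)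
    (ap W) hG fun l hl hGl => by
      have e : (GaloisReps.toFull (↑(∅ : Finset ℕ) : Set ℕ)).toRingHom
          (CuspForm.heckeAlgebra.T hl (hG l hl hGl).1 (by simp)) =
            HeckeDuality.heckeOp L 2 l hl := GaloisReps.toFull_T hl _ _
      have hlS : l ∉ S := fun hm => by
        obtain ⟨-, hd, -⟩ := Nat.mem_primeFactors.mp hm
        rcases hl.dvd_mul.mp hd with hd | hd
        · exact hGl.1 hd
        · exact hGl.2 (Int.natCast_dvd.mpr hd)
      rw [RingHom.comp_apply, RingHom.comp_apply, e, hφ l hl hlS _ (hθ l hl)]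
      simp [Core.abar]
  let D := curveData hΔ hp2 hirr L
  have hS := good_of_not_mem (W := W) (p := p) hΔ (Fact.out : p.Prime).ne_zero (NeZero.ne L)
  have hG' : ∀ l, l.Prime → Good W p L l → ¬ l ∣ L * p := fun l _ hGl => hGl.1
  obtain ⟨U, hU, hne, hst, hker, hns⟩ :=
    exists_residual_subgroup D _ hS hG' (x₀ := x) ⟨hpx, hx⟩ hx0
  exact ⟨{ U := U, torsion := fun y hy => (hU hy).1, eigen := fun y hy => (hU hy).2
           ne_bot := hne, stable := hst, ker := hker, nonscalar := hns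
           quad := fun σ y hy => quad_eigenPart D _ hS hG' σ (hU hy) }⟩

namespace ResSubgroup

variable {D : ResData p G a} {L : ℕ} [NeZero L] (R : ResSubgroup D L)
  {A : ValuationSubring QBar}

theorem wildKer_smul (hD : ∀ σ, (∀ x : PointQBar W, (p : ℤ) • x = 0 → σ • x = x) → D.r σ = 1)
    {τ : GQ} (hτ : τ ∈ wildKer A W p) {x : JZero L} (hx : x ∈ R.U) : τ • x = x :=
  R.ker τ (hD τ (mem_wildKer.mp hτ).2) x hx

/-- On the part of inertia trivial on `μ_p` the action is unipotent, given trace and determinant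
of inertia. -/
theorem tameKer_smul_sub (hp2 : p ≠ 2)
    (hI : ∀ τ ∈ A.inertiaSubgroupIn ℚ, (D.r τ).trace = (cyclotomicHom p τ : ZMod p) + 1 ∧
      (D.r τ).det = (cyclotomicHom p τ : ZMod p))
    {τ : GQ} (hτ : τ ∈ tameKer A p) {x : JZero L} (hx : x ∈ R.U) :
    τ • (τ • x - x) = τ • x - x := by
  obtain ⟨hτI, hχ⟩ := mem_tameKer.mp hτ
  obtain ⟨ht, hd⟩ := hI τ hτI
  rw [hχ, Units.val_one] at ht hd
  have e := R.quad τ x hx
  have hp := (Fact.out : p.Prime).two_le
  have h2 : ((1 : ZMod p) + 1).val = 2 := by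
    rw [show (1 : ZMod p) + 1 = ((2 : ℕ) : ZMod p) by norm_num, ZMod.val_natCast,
      Nat.mod_eq_of_lt (by omega)]
  have h1 : (1 : ZMod p).val = 1 := ZMod.val_one _
  rw [ht, hd, h1, h2, one_smul, two_nsmul] at e
  rw [smul_sub, ← sub_eq_zero, ← e]
  abel

end ResSubgroup

end Fermat.Agent.RT.LowerPW

end
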