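import Fermat.Agent.RT.LowerPW.Data
import Fermat.Agent.RT.LowerP.Flat
import Fermat.Prelude.Def_WeierstrassCurve_PeuRamifiee

/-!
# Flatness of the classes of a residual subgroup

When inertia over `p` has trace `χ + 1` and the field it cuts out on `E[p]` is that of `μ_p` or
wild over it with lower jump one, the classes are flat unless there is an eigenform of level `M`.
-/

set_option autoImplicit false

noncomputable section

open ModularCurve Fermat.Agent.Semistable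

namespace Fermat.Agent.RT.LowerPW

open Fermat.Agent.RT.LowerP (ResData Ctx HasForm isFlatClass_of_fn)
open Fermat.Agent.RT.MazurP
open Fermat.Agent.EC.AtP (PointQBar)
open Arith (QBar GQ)
open Arith (cyclotomicHom)

variable {p : ℕ} [Fact p.Prime] {A : ValuationSubring QBar}

/-- The inertia over `p` on `E[p]` is tame, or wild with lower jump one and then generated by one
wild element `σ` modulo the kernel on `E[p]`. -/
def Dichotomy (A : ValuationSubring QBar) (W : WeierstrassCurve ℤ) (p : ℕ) [Fact p.Prime] : Prop :=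
  wildKer A W p = tameKer A p ∨
    ∃ Wd : Wild A p, Wd.C.H = wildKer A W p ∧ Wd.C₁.H = tameKer A p ∧
      ∀ h ∈ tameKer A p, ∃ i : ℕ, (Wd.σ ^ i)⁻¹ * h ∈ wildKer A W p

variable {W : WeierstrassCurve ℤ} {G : ℕ → Prop} {a : ℕ → ℤ} {D : ResData p G a} {M : ℕ} [NeZero M]

/-- Without an eigenform of level `M`, the classes of the residual subgroup are flat. -/
theorem ResSubgroup.isFlatClass (hp2 : p ≠ 2) (R : ResSubgroup D (p * M))
    (hD : ∀ σ, (∀ x : PointQBar W, (p : ℤ) • x = 0 → σ • x = x) → D.r σ = 1)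
    (hI : ∀ τ ∈ A.inertiaSubgroupIn ℚ, (D.r τ).trace = (cyclotomicHom p τ : ZMod p) + 1 ∧
      (D.r τ).det = (cyclotomicHom p τ : ZMod p))
    (hdich : Dichotomy A W p)
    [CharP (Res A) p] [FF.IsFunctionField (Res A) (KM A M)]
    (S : Ctx A p M G a) (hno : ¬ HasForm p M G a) {x : JZero (p * M)} (hx : x ∈ R.U) :
    OrdinaryAtP.IsFlatClass A M p S.hpM x := by
  have hp3 : 3 ≤ p := (Fact.out : p.Prime).two_le.lt_of_ne' hp2
  have hxe : IsEigen (p * M) G a x := R.eigen x hx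
  rcases hdich with heq | ⟨Wd, hWH, hW1, hWgen⟩
  · obtain ⟨C, hC, hCe⟩ := exists_tame_coefField (p := p) S.hA
    obtain ⟨f, hfn, -, hred⟩ := S.exists_flat_fn_tame (C := C) hno (by
        rw [hCe]
        exact fun hd => absurd (Nat.le_of_dvd (by omega) hd) (by omega))
      hxe (R.torsion x hx) (fun τ hτ => R.wildKer_smul (A := A) hD (by rw [heq]; exact hC ▸ hτ) hx)
    exact isFlatClass_of_fn hfn hred
  · have hσ : Wd.σ ∈ tameKer A p := hW1 ▸ Wd.σ_mem
    obtain ⟨f, hfn, -, hred⟩ := S.exists_flat_fn_wild hno Wd hxe (R.torsion x hx)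
      (fun τ hτ => R.wildKer_smul (A := A) hD (hWH ▸ hτ) hx) fun τ hτ => by
        obtain ⟨i, hi⟩ := hWgen τ (hW1 ▸ hτ)
        have hy : Wd.σ • x - x ∈ R.U := sub_mem (R.stable _ x hx) hx
        have hfix : ∀ j : ℕ, Wd.σ ^ j • (Wd.σ • x - x) = Wd.σ • x - x := fun j => by
          induction j with
          | zero => simp
          | succ j ih => rw [pow_succ, mul_smul, R.tameKer_smul_sub hp2 hI hσ hx, ih]
        calc τ • (Wd.σ • x - x) = Wd.σ ^ i • (((Wd.σ ^ i)⁻¹ * τ) • (Wd.σ • x - x)) := by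
              rw [← mul_smul, mul_inv_cancel_left]
          _ = Wd.σ ^ i • (Wd.σ • x - x) := by rw [R.wildKer_smul hD hi hy]
          _ = Wd.σ • x - x := hfix i
    exact isFlatClass_of_fn hfn hred

open Fermat.Agent.EC.Reduction in
/-- The dichotomy at a multiplicative place with `p ∣ v(Δ)`. -/
theorem dichotomy_of_mult (hA : A.LiesOverPrime p) (hp2 : p ≠ 2) (hΔ0 : W.Δ ≠ 0)
    (hΔ : (p : ℤ) ∣ W.Δ) (hc₄ : ¬ (p : ℤ) ∣ W.c₄) (hv : p ∣ padicValInt p W.Δ) :
    Dichotomy A W p :=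
  (wildKer_eq_tameKer_or_exists_wild hA hp2 hΔ0 hΔ hc₄ hv).imp id
    fun ⟨Wd, h, h1, _, hg⟩ => ⟨Wd, h, h1, hg⟩

/-- The values on inertia at a multiplicative place. -/
theorem curveMat_inertia_of_mult (hA : A.LiesOverPrime p) (hp2 : p ≠ 2) (hΔ0 : W.Δ ≠ 0)
    (hΔ : (p : ℤ) ∣ W.Δ) (hc₄ : ¬ (p : ℤ) ∣ W.c₄) {τ : GQ} (hτ : τ ∈ A.inertiaSubgroupIn ℚ) :
    (curveMat hΔ0 τ : Matrix _ _ (ZMod p)).trace = (cyclotomicHom p τ : ZMod p) + 1 ∧
      (curveMat hΔ0 τ : Matrix _ _ (ZMod p)).det = (cyclotomicHom p τ : ZMod p) :=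
  ⟨(trace_curveMat hΔ0 τ).trans ((exists_frame hA hp2 hΔ0 hΔ hc₄).2 τ hτ), det_curveMat hΔ0 τ⟩

omit [Fact p.Prime] in
/-- `p ∣ v_p(Δ)` for a peu ramifié model. -/
theorem dvd_padicValInt_of_isPeuRamifieeAt
    (hfin : (W.map (Int.castRingHom ℚ)).IsPeuRamifieeAt p p) : p ∣ padicValInt p W.Δ := by
  have h := hfin
  rw [WeierstrassCurve.IsPeuRamifieeAt, WeierstrassCurve.map_Δ, eq_intCast,
    padicValRat.of_int] at h
  exact Int.natCast_dvd_natCast.mp h

end Fermat.Agent.RT.LowerPW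

end
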