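import Fermat.Agent.RT.MazurP.LocalE
import Fermat.Agent.EC.AtP.Inertia

/-!
# Inertia over `p` on `E[p]` at a place of good ordinary reduction

For odd `p` and good reduction, if some point of order `p` does not reduce to the origin, then
inertia is triangular on `E[p]` and
the field cut out by the part trivial on `E[p]` is tame or wild with jump one (peu ramifié): the
abscissa of that point moves as far as the parameter of the torsion point in the kernel of
reduction.
-/

set_option autoImplicit false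

open WeierstrassCurve WeierstrassCurve.Affine Fermat.Agent.Arith

noncomputable section

namespace Fermat.Agent.RT.LowerPW

open Fermat.Agent.EC.Reduction Fermat.Agent.EC.Rep Fermat.Agent.RT.MazurP
open Fermat.Agent.EC.AtP (PointQBar)

variable {A : ValuationSubring (AlgebraicClosure ℚ)} {W : WeierstrassCurve ℤ} {p : ℕ}
  [Fact p.Prime]

variable (hA : A.LiesOverPrime p)
include hA

variable (hp2 : p ≠ 2) (hΔ0 : W.Δ ≠ 0) (hgood : ¬ (p : ℤ) ∣ W.Δ)
include hp2 hΔ0 hgood

omit hgood in
/-- Some inertia element at `p` moves a `p`-torsion point, as the cyclotomic character is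
surjective on inertia. -/
private theorem exists_inertia_moves :
    ∃ τ ∈ A.inertiaSubgroupIn ℚ, ∃ v, (residualRep W p hΔ0).ρ τ v ≠ v := by
  have : (W.map (Int.castRingHom ℚ)).IsElliptic :=
    ⟨isUnit_iff_ne_zero.mpr (by rw [map_Δ, eq_intCast]; exact Int.cast_ne_zero.mpr hΔ0)⟩
  obtain ⟨τ, hτ, hχτ⟩ := exists_mem_inertia_cyclotomicHom_eq hA (-1 : (ZMod p)ˣ)
  refine ⟨τ, hτ, ?_⟩
  by_contra hall
  simp only [not_exists, not_not] at hall
  have e : (residualRep W p hΔ0).ρ τ = 1 := LinearMap.ext hall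
  have hd := det_residualRep hΔ0 (IsAlgClosed.card_rootsOfUnity_eq _ p) τ
  rw [e, map_one, ← cyclotomicHom_apply, hχτ, Units.val_neg, Units.val_one] at hd
  exact two_ne_zero_zmod hp2 (by linear_combination hd)

/-- At a place of good reduction where some point of order `p` does not reduce to the origin,
inertia is triangular on `E[p]`. -/
theorem exists_triFrame {S : PointQBar W} (hS : (p : ℤ) • S = 0) (hS1 : ¬ InE1 A S) :
    ∃ F : TriFrame A W p, F.S = S := by
  classical
  have hp : p.Prime := Fact.out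
  have : (W.map (Int.castRingHom ℚ)).IsElliptic :=
    ⟨isUnit_iff_ne_zero.mpr (by rw [map_Δ, eq_intCast]; exact Int.cast_ne_zero.mpr hΔ0)⟩
  have hred := reducesTo_int W A
  have hsub : ∀ τ ∈ A.inertiaSubgroupIn ℚ, ∀ x : PointQBar W, InE1 A (τ • x - x) := fun τ hτ x =>
    EC.AtP.smul_sub_inE1 hτ (inE0_of_good hA hp hgood x)
  -- `R = τ v - v` reduces to the origin and `S` does not, so they form a basis of `E[p]`
  obtain ⟨τ, hτ, v, hv⟩ := exists_inertia_moves hA hp2 hΔ0
  set R : PointQBar W := τ • v.1 - v.1 with hRdef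
  have hR1 : InE1 A R := hsub τ hτ _
  have hvtor : (p : ℤ) • v.1 = 0 := (Submodule.mem_torsionBy_iff _ _).mp v.2
  have hRtor : (p : ℤ) • R = 0 := by
    rw [hRdef, zsmul_sub, ← smul_zsmul_point, hvtor, smul_zero_point, sub_zero]
  have hR0 : R ≠ 0 := fun e => hv (Subtype.ext (sub_eq_zero.mp e))
  let r : (residualRep W p hΔ0).V := ⟨R, (Submodule.mem_torsionBy_iff _ _).mpr hRtor⟩
  let s : (residualRep W p hΔ0).V := ⟨S, (Submodule.mem_torsionBy_iff _ _).mpr hS⟩
  have hr : r ≠ 0 := fun e => hR0 (congrArg Subtype.val e)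
  have hzsmul : ∀ (a : ℤ) {x : PointQBar W}, InE1 A x → InE1 A (a • x) := fun a _ hx =>
    (hred.E1).zsmul_mem hx a
  have hs : s ∉ (ZMod p) ∙ r := by
    intro hmem
    obtain ⟨a, ha⟩ := Submodule.mem_span_singleton.mp hmem
    obtain ⟨a, rfl⟩ := ZMod.intCast_surjective a
    rw [Int.cast_smul_eq_zsmul] at ha
    refine hS1 ?_
    rw [← (show a • R = S from congrArg Subtype.val ha)]
    exact hzsmul a hR1
  have hb : LinearIndependent (ZMod p) ![r, s] :=
    (LinearIndependent.pair_iff' hr).mpr fun a e => hs (Submodule.mem_span_singleton.mpr ⟨a, e⟩)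
  let b := basisOfLinearIndependentOfCardEqFinrank hb
    (by rw [Fintype.card_fin, (residualRep W p hΔ0).finrank_eq])
  have hb0 : b 0 = r := by simp [b]
  have hb1 : b 1 = s := by simp [b]
  have hspan : ∀ x : PointQBar W, (p : ℤ) • x = 0 → ∃ a c : ℤ, x = a • R + c • S := by
    intro x hx
    let w : (residualRep W p hΔ0).V := ⟨x, (Submodule.mem_torsionBy_iff _ _).mpr hx⟩
    obtain ⟨a₀, ha₀⟩ := ZMod.intCast_surjective (b.repr w 0)
    obtain ⟨a₁, ha₁⟩ := ZMod.intCast_surjective (b.repr w 1)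
    have e := b.sum_repr w
    rw [Fin.sum_univ_two, hb0, hb1, ← ha₀, ← ha₁, Int.cast_smul_eq_zsmul,
      Int.cast_smul_eq_zsmul] at e
    exact ⟨a₀, a₁, (congrArg Subtype.val e).symm⟩
  -- the torsion in the kernel of reduction is generated by `R`
  have hgen : ∀ x : PointQBar W, (p : ℤ) • x = 0 → InE1 A x → ∃ a : ℤ, x = a • R := by
    intro x hx hx1
    obtain ⟨a, c, rfl⟩ := hspan x hx
    refine ⟨a, add_eq_left.mpr ?_⟩
    by_cases hc : (c : ZMod p) = 0
    · rw [zsmul_congr hS (b := 0) (by rw [hc, Int.cast_zero]), zero_zsmul]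
    · refine absurd ?_ hS1
      have hcS : InE1 A (c • S) := by
        simpa using hred.E1.sub_mem (show _ ∈ hred.E1 from hx1) (hzsmul a hR1)
      have := hzsmul ((c : ZMod p)⁻¹).val hcS
      rwa [← mul_zsmul, zsmul_congr hS (b := 1) (by
        push_cast; rw [ZMod.natCast_val, ZMod.cast_id, inv_mul_cancel₀ hc]), one_zsmul] at this
  -- inertia is triangular in that basis, with the cyclotomic character on `R`
  refine ⟨⟨R, S, hRtor, hS, hR0, hR1, hspan, fun σ hσ => ?_, fun σ hσ => ?_⟩, rfl⟩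
  · obtain ⟨a, ha⟩ := hgen (σ • R) (by rw [← smul_zsmul_point, hRtor, smul_zero_point])
      ((ReducesTo.inE1_smul_iff (res_inertia hσ).1).mpr hR1)
    obtain ⟨c, hc⟩ := hgen (σ • S - S)
      (by rw [zsmul_sub, ← smul_zsmul_point, hS, smul_zero_point, sub_zero]) (hsub σ hσ S)
    have e0 : (residualRep W p hΔ0).ρ σ (b 0) = (a : ZMod p) • b 0 := by
      rw [hb0, Int.cast_smul_eq_zsmul]; exact Subtype.ext ha
    have e1 : (residualRep W p hΔ0).ρ σ (b 1) = (c : ZMod p) • b 0 + b 1 := by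
      rw [hb0, hb1, Int.cast_smul_eq_zsmul]
      exact Subtype.ext (show σ • S = c • R + S by rw [← hc, sub_add_cancel])
    have hd : LinearMap.det ((residualRep W p hΔ0).ρ σ) = (a : ZMod p) := by
      rw [← LinearMap.det_toMatrix b, Matrix.det_fin_two]
      simp [LinearMap.toMatrix_apply, e0, e1]
    rw [ha, ← natCast_zsmul]
    refine zsmul_congr hRtor ?_
    rw [← hd, det_residualRep hΔ0 (IsAlgClosed.card_rootsOfUnity_eq _ p), cyclotomicHom_apply]
    simp
  · obtain ⟨c, hc⟩ := hgen (σ • S - S)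
      (by rw [zsmul_sub, ← smul_zsmul_point, hS, smul_zero_point, sub_zero]) (hsub σ hσ S)
    exact ⟨c, by rw [← hc]; abel⟩

omit hΔ0 in
/-- The abscissa of `S` moves as far as the parameter of `R`. -/
theorem exists_moved (F : TriFrame A W p) (hS1 : ¬ InE1 A F.S) {σ : GQ} (hσ : σ ∈ tameKer A p)
    (hσS : σ • F.S = F.S + F.R) :
    ∃ z ∈ A, (∀ h ∈ wildKer A W p, h z = z) ∧
      A.valuation (σ z - z) = A.valuation (sCoord F.R) := by
  classical
  have hp : p.Prime := Fact.out
  have hred := reducesTo_int W A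
  obtain ⟨x, y, hxy, hSdef⟩ : ∃ x y, ∃ h, F.S = Point.some x y h := by
    generalize F.S = P at hS1
    match P with
    | .zero => exact absurd inE1_zero hS1
    | .some x y h => exact ⟨x, y, h, rfl⟩
  have hxA : x ∈ A := by rw [hSdef, inE1_some, not_not] at hS1; exact hS1
  have hyA : y ∈ A := hred.y_mem hxy.1 hxA
  have hσI := (mem_tameKer.mp hσ).1
  obtain ⟨h', eσ⟩ := EC.Reduction.smul_some (σ := σ) hxy
  obtain ⟨hnA, hnr⟩ := hred.res_negY hxA hyA
  obtain ⟨hσxA, -⟩ := res_inertia_map hσI hxA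
  obtain ⟨hσyA, hσyr⟩ := res_inertia_map hσI hyA
  have hR : F.R = Point.some _ _ h' + -Point.some _ _ hxy := by
    rw [← eσ, ← hSdef, hσS]; abel
  have h2 : ¬ InE1 A ((2 : ℕ) • F.S) := fun h => by
    refine hS1 ?_
    obtain ⟨j, hj⟩ := hp.odd_of_ne_two hp2
    have e : F.S = (j + 1) • (2 : ℕ) • F.S := by
      rw [← mul_smul, show (j + 1) * 2 = p + 1 by omega, add_smul, one_smul, ← natCast_zsmul,
        F.hS, zero_add]
    rw [e]
    exact (hred.E1).nsmul_mem h _
  -- the reduction is not of order two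
  have hnum : res A (y - _) ≠ 0 := fun e => by
    rw [res_sub hyA hnA, sub_eq_zero] at e
    refine h2 ?_
    rw [two_nsmul]
    nth_rw 2 [← neg_neg F.S]
    rw [← sub_eq_add_neg]
    have hn : _ := (nonsingular_neg x y).mpr hxy
    have hy0 := inE0_of_good hA hp hgood F.S
    refine hred.sub_mem_E1 hy0 ((hred.neg_spec hy0).1) ?_
    have hns := ((inE0_some hxy).mp (hSdef ▸ hy0)).resolve_left (not_not_intro hxA)
    have hns' := e ▸ hns
    rw [hSdef, Point.neg_some, redFun_some _ hxA hns, redFun_some hn hxA hns']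
    exact some_eq_some _ _ rfl e
  -- so the abscissa of `S` moves
  have hne : σ x ≠ x := by
    intro hx
    rcases Y_eq_of_X_eq h'.left hxy.left hx with hy | hy
    · refine F.R_ne ?_
      rw [hR, some_eq_some h' hxy hx hy, add_neg_cancel]
    · refine hnum (res_eq_zero ?_)
      rw [show y - _ = -(σ y - y) by rw [← hy]; ring]
      exact A.mem_nonunits_iff.mpr
        (by rw [Valuation.map_neg]; exact valuation_inertia_sub_lt hσI hyA)
  -- the chord through `σ S` and `-S` is steep: the parameter of `R` is its inverse slope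
  have hnumA : σ y - _ ∈ A := sub_mem hσyA hnA
  have hv1 : A.valuation (σ y - _) = 1 :=
    Semistable.valuation_eq_one hnumA fun hn => hnum (by
      have e := res_eq_zero hn
      rwa [res_sub hσyA hnA, hσyr, ← res_sub hyA hnA] at e)
  have hd0 : 0 < A.valuation (σ x - x) :=
    zero_lt_iff.mpr ((Valuation.ne_zero_iff _).mpr (sub_ne_zero.mpr hne))
  have hlt := valuation_inertia_sub_lt hσI hxA
  obtain ⟨-, hs⟩ := sCoord_add_of_steep (h₁ := h') (h₂ := (nonsingular_neg x y).mpr hxy) hred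
    hσxA hxA hσyA hne (by rw [map_div₀, hv1]; exact (one_lt_div₀ hd0).mpr hlt)
  refine ⟨x, hxA, fun h hh => ?_, ?_⟩
  · obtain ⟨h'', eh⟩ := EC.Reduction.smul_some (σ := h) hxy
    have e := (mem_wildKer.mp hh).2 F.S F.hS
    rw [hSdef, eh] at e
    exact ((Point.some.injEq ..).mp e).1
  · rw [hR, Point.neg_some, hs, map_div₀, hv1, one_div, inv_inv]

/-- At a good ordinary place the field of `wildKer` is tame, or wild with jump one. -/
theorem wildKer_eq_tameKer_or_exists_wild_of_good {S : PointQBar W} (hS : (p : ℤ) • S = 0)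
    (hS1 : ¬ InE1 A S) :
    wildKer A W p = tameKer A p ∨
      ∃ Wd : Wild A p, Wd.C.H = wildKer A W p ∧ Wd.C₁.H = tameKer A p ∧
        (∃ x : PointQBar W, (p : ℤ) • x = 0 ∧ Wd.σ • x ≠ x) ∧
        ∀ h ∈ tameKer A p, ∃ i : ℕ, (Wd.σ ^ i)⁻¹ * h ∈ wildKer A W p := by
  obtain ⟨F, hF⟩ := exists_triFrame hA hp2 hΔ0 hgood hS hS1
  exact F.eq_tameKer_or_exists_wild hA hp2 fun σ hσ hσS =>
    exists_moved hA hp2 hgood F (hF ▸ hS1) hσ hσS

omit hA hp2 hgood in
/-- Inertia acts with trace `χ + 1` on a triangular frame. -/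
theorem trace_residualRep_of_triFrame (F : TriFrame A W p) {τ : GQ}
    (hτ : τ ∈ A.inertiaSubgroupIn ℚ) :
    LinearMap.trace (ZMod p) (residualRep W p hΔ0).V ((residualRep W p hΔ0).ρ τ) =
      (cyclotomicHom p τ : ZMod p) + 1 := by
  classical
  set ρ := residualRep W p hΔ0
  set χ : ZMod p := (cyclotomicHom p τ : ZMod p)
  let b : Module.Basis (Fin 2) (ZMod p) ρ.V := Module.finBasisOfFinrankEq _ _ ρ.finrank_eq
  let r : ρ.V := ⟨F.R, (Submodule.mem_torsionBy_iff _ _).mpr F.hR⟩
  have hr : r ≠ 0 := fun e => F.R_ne (congrArg Subtype.val e)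
  have he : ρ.ρ τ r = χ • r := by
    rw [← ZMod.natCast_zmod_val χ, Nat.cast_smul_eq_nsmul]
    exact Subtype.ext (F.smul_R τ hτ)
  have hd : LinearMap.det (ρ.ρ τ) = χ := by
    rw [det_residualRep hΔ0 (IsAlgClosed.card_rootsOfUnity_eq _ p), ← cyclotomicHom_apply]
  have h0 : LinearMap.det (ρ.ρ τ - χ • (1 : Module.End (ZMod p) ρ.V)) = 0 :=
    LinearMap.det_eq_zero_iff_ker_ne_bot.mpr fun e => hr (LinearMap.ker_eq_bot'.mp e r (by
      simp [he]))
  rw [← LinearMap.det_toMatrix b, map_sub, map_smul, LinearMap.toMatrix_one] at h0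
  rw [← LinearMap.det_toMatrix b] at hd
  rw [LinearMap.trace_eq_matrix_trace _ b]
  simp only [Matrix.det_fin_two, Matrix.trace_fin_two, Matrix.sub_apply, Matrix.smul_apply,
    Matrix.one_apply, if_true, Fin.isValue, zero_ne_one, one_ne_zero, if_false, smul_eq_mul,
    mul_one, mul_zero, sub_zero] at h0 hd ⊢
  have hχ : χ ≠ 0 := Units.ne_zero _
  refine mul_left_cancel₀ hχ ?_
  linear_combination -h0 + hd

end Fermat.Agent.RT.LowerPW

end
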