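import Fermat.Agent.RT.MazurP.LocalE
import Fermat.Agent.EC.AtP.Line

/-!
# The field of `E[p]` when all `p`-torsion reduces to the origin

All parameters of nonzero `p`-torsion points have the valuation `v(p) ^ (1 / (p² - 1))` and their
leading terms are additive, so inertia acts on `E[p]` through a cyclic quotient of order dividing
`p² - 1`: the field is tame.
-/

set_option autoImplicit false

open WeierstrassCurve WeierstrassCurve.Affine Fermat.Agent.Arith

noncomputable section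

namespace Fermat.Agent.RT.LowerPW

open Fermat.Agent.EC.Reduction Fermat.Agent.EC.Rep Fermat.Agent.RT.MazurP
open Fermat.Agent.EC.AtP (PointQBar)

section General

variable {L : Type*} [Field L] {A : ValuationSubring L}
  {W : Affine L} {V : Affine (IsLocalRing.ResidueField A)}

/-- The parameter at infinity squared is the inverse of the abscissa, up to a unit. -/
theorem valuation_sCoord_sq_mul (h : ReducesTo A W V) {x y : L} (hn : W.Nonsingular x y)
    (hx : x ∉ A) : A.valuation (sCoord (Point.some x y hn)) ^ 2 * A.valuation x = 1 := by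
  obtain ⟨W₀, rfl, -⟩ := h
  obtain ⟨s, t, u, hs, ht, -, -, hu, htu, -⟩ := ReducesTo.exists_st W₀ hn.left hx
  have hy0 : y ≠ 0 := ((reducesTo_map A W₀).infinite_coords hn.left hx).1
  have hx0 : x ≠ 0 := fun e => hx (e ▸ zero_mem A)
  have e := congrArg (fun a : A => A.valuation (a : L)) htu
  simp only [MulMemClass.coe_mul, SubmonoidClass.coe_pow, map_mul, map_pow,
    (A.valuation_eq_one_iff _).mp hu, mul_one, hs, ht, map_inv₀, map_div₀] at e
  rw [sCoord_some, map_div₀]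
  have hy : A.valuation y ≠ 0 := (Valuation.ne_zero_iff _).mpr hy0
  have hxv : A.valuation x ≠ 0 := (Valuation.ne_zero_iff _).mpr hx0
  field_simp at e ⊢
  exact e.symm

variable [DecidableEq L]

/-- The leading term of the parameter is additive. -/
theorem res_sCoord_add_div (h : ReducesTo A W V) {P Q : W.Point} (hP : InE1 A P) (hQ : InE1 A Q)
    {π : L} (hπ : π ∈ A.nonunits) (hπ0 : π ≠ 0) (hPπ : sCoord P / π ∈ A)
    (hQπ : sCoord Q / π ∈ A) :
    sCoord (P + Q) / π ∈ A ∧ res A (sCoord (P + Q) / π) =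
      res A (sCoord P / π) + res A (sCoord Q / π) := by
  obtain ⟨W₀, rfl, -⟩ := h
  set p₀ : A := ⟨π, ValuationSubring.nonunits_subset hπ⟩
  set q₁ : A := ⟨_, hPπ⟩
  set q₂ : A := ⟨_, hQπ⟩
  have e₁ : ((q₁ * p₀ : A) : L) = sCoord P := by
    show sCoord P / π * π = _
    rw [div_mul_cancel₀ _ hπ0]
  have e₂ : ((q₂ * p₀ : A) : L) = sCoord Q := by
    show sCoord Q / π * π = _
    rw [div_mul_cancel₀ _ hπ0]
  obtain ⟨s₃, e₃, h₃⟩ := ReducesTo.sCoord_add W₀ hP hQ e₁ e₂ (Ideal.span {p₀})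
    (Ideal.mul_mem_left _ _ (Ideal.mem_span_singleton_self _))
    (Ideal.mul_mem_left _ _ (Ideal.mem_span_singleton_self _))
  rw [Ideal.span_singleton_pow, Ideal.mem_span_singleton] at h₃
  obtain ⟨r, hr⟩ := h₃
  have hres : IsLocalRing.residue A p₀ = 0 := by rw [← res_coe]; exact res_eq_zero hπ
  have e : sCoord (P + Q) / π =
      ((q₁ + q₂ + W₀.a₁ * q₁ * q₂ * p₀ + r * p₀ ^ 2 : A) : L) := by
    rw [div_eq_iff hπ0, ← e₃]
    have := congrArg (Subtype.val : A → L) hr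
    push_cast [p₀] at this ⊢
    linear_combination this
  rw [e]
  refine ⟨Subtype.prop _, ?_⟩
  rw [res_coe, show res A (sCoord P / π) = IsLocalRing.residue A q₁ from res_coe q₁,
    show res A (sCoord Q / π) = IsLocalRing.residue A q₂ from res_coe q₂]
  simp [hres]

end General

variable {A : ValuationSubring QBar} {W : WeierstrassCurve ℤ} {p : ℕ} [Fact p.Prime]

/-- If all `p`-torsion reduces to the origin, the parameters of the nonzero torsion points have
valuation `v(p) ^ (1 / (p² - 1))`. -/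
private theorem valuation_sCoord_pow [(W.map (Int.castRingHom ℚ)).IsElliptic]
    (hA : A.LiesOverPrime p) (hp2 : p ≠ 2)
    (hgood : ¬ (p : ℤ) ∣ W.Δ) (hall : ∀ P : PointQBar W, (p : ℤ) • P = 0 → InE1 A P)
    {P : PointQBar W} (hP : (p : ℤ) • P = 0) (hP0 : P ≠ 0) :
    A.valuation (sCoord P) ^ (p ^ 2 - 1) = A.valuation (p : QBar) := by
  have hp : p.Prime := Fact.out
  have hred := reducesTo_int W A
  have hn2 : 2 * ((p ^ 2 - 1) / 2) = p ^ 2 - 1 := by
    obtain ⟨j, hj⟩ := hp.odd_of_ne_two hp2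
    rw [show p ^ 2 = 2 * (2 * j * (j + 1)) + 1 by rw [hj]; ring]
    omega
  set v := A.valuation
  have hall' : ∀ Q : PointQBar W, p • Q = 0 → InE1 A Q := fun Q hQ =>
    hall Q (by rw [natCast_zsmul]; exact hQ)
  match P with
  | .zero => exact absurd rfl hP0
  | .some x y h =>
    have h1 := valuation_sCoord_sq_mul hred h (hall _ hP)
    have h2 := EC.AtP.valuation_pow_mul_of_forall_inE1 W hA hp hp2 (fun hh => hgood hh.2)
      hall' h (by rw [← natCast_zsmul]; exact hP)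
    rw [map_mul, map_pow] at h2
    rw [← hn2, pow_mul]
    have hx0 : v x ≠ 0 := fun e => by rw [e, mul_zero] at h1; exact zero_ne_one h1
    rw [show v (sCoord (Point.some x y h)) ^ 2 = (v x)⁻¹ from eq_inv_of_mul_eq_one_left h1,
      inv_pow]
    exact inv_eq_of_mul_eq_one_right h2

/-- The valuation of an element fixed by a subgroup of inertia with cyclic quotient of order
dividing `n` is a power of that of `π`, where `v π ^ n = v p`. -/
private theorem exists_zpow_of_cyclic (hA : A.LiesOverPrime p) {H : Subgroup GQ} {τ₀ : GQ}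
    (hτ₀ : τ₀ ∈ A.inertiaSubgroupIn ℚ) {n : ℕ} (hn0 : 0 < n)
    (hnorm : ∀ h ∈ H, τ₀⁻¹ * h * τ₀ ∈ H) (hpow : τ₀ ^ n ∈ H)
    (hgen : ∀ τ ∈ A.inertiaSubgroupIn ℚ, ∃ i : ℕ, (τ₀ ^ i)⁻¹ * τ ∈ H)
    {π : QBar} (hπn : A.valuation π ^ n = A.valuation (p : QBar)) {x : QBar} (hx0 : x ≠ 0)
    (hx : ∀ h ∈ H, h x = x) : ∃ k : ℤ, A.valuation x = A.valuation π ^ k := by
  have hp : p.Prime := Fact.out
  obtain ⟨hN, hg⟩ := fixed_prod_pow hnorm hpow hx
  set N := ∏ i ∈ Finset.range n, (τ₀ ^ i) x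
  have hN0 : N ≠ 0 := Finset.prod_ne_zero_iff.mpr fun i _ => (map_ne_zero _).mpr hx0
  obtain ⟨k, hk⟩ := exists_zpow_of_inertiaFixed hA hp hN0 fun τ hτ => by
    obtain ⟨i, hi⟩ := hgen τ hτ
    have h1 : ∀ j : ℕ, (τ₀ ^ j) N = N := fun j => by
      induction j with
      | zero => simp
      | succ j ih => rw [pow_succ, AlgEquiv.mul_apply, hg, ih]
    rw [show τ = τ₀ ^ i * ((τ₀ ^ i)⁻¹ * τ) by group, AlgEquiv.mul_apply,
      hN _ hi, h1]
  refine ⟨k, (pow_left_inj₀ zero_le zero_le hn0.ne').mp ?_⟩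
  rw [map_prod, Finset.prod_congr rfl fun i _ => valuation_inertia (pow_mem hτ₀ i) x,
    Finset.prod_const, Finset.card_range] at hk
  rw [hk, ← hπn, ← zpow_natCast, ← zpow_natCast, ← zpow_mul, ← zpow_mul, mul_comm]

/-- If all `p`-torsion reduces to the origin, the parameter of some nonzero torsion point divides
all of them, with a unit quotient away from the origin. -/
private theorem exists_uniform_param [(W.map (Int.castRingHom ℚ)).IsElliptic]
    (hA : A.LiesOverPrime p) (hp2 : p ≠ 2) (hΔ0 : W.Δ ≠ 0) (hgood : ¬ (p : ℤ) ∣ W.Δ)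
    (hall : ∀ P : PointQBar W, (p : ℤ) • P = 0 → InE1 A P) :
    ∃ P₀ : PointQBar W, (p : ℤ) • P₀ = 0 ∧ P₀ ≠ 0 ∧
      A.valuation (sCoord P₀) ^ (p ^ 2 - 1) = A.valuation (p : QBar) ∧
      (∀ P : PointQBar W, (p : ℤ) • P = 0 → P ≠ 0 →
        A.valuation (sCoord P / sCoord P₀) = 1) ∧
      ∀ P : PointQBar W, (p : ℤ) • P = 0 → sCoord P / sCoord P₀ ∈ A := by
  have hp : p.Prime := Fact.out
  have hn0 : p ^ 2 - 1 ≠ 0 := by
    have : 4 ≤ p ^ 2 := by nlinarith [hp.two_le]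
    omega
  have hval := fun P (hP : (p : ℤ) • P = 0) (hP0 : P ≠ 0) =>
    valuation_sCoord_pow (W := W) hA hp2 hgood hall hP hP0
  obtain ⟨w, hw⟩ : ∃ w : (residualRep W p hΔ0).V, w ≠ 0 :=
    let b : Module.Basis (Fin 2) (ZMod p) (residualRep W p hΔ0).V :=
      Module.finBasisOfFinrankEq _ _ (residualRep W p hΔ0).finrank_eq
    ⟨b 0, b.ne_zero 0⟩
  have hP₀tor : (p : ℤ) • w.1 = 0 := (Submodule.mem_torsionBy_iff _ _).mp w.2
  have hP₀0 : w.1 ≠ 0 := fun e => hw (Subtype.ext e)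
  have hvπ : A.valuation (sCoord w.1) ≠ 0 := (Valuation.ne_zero_iff _).mpr
    ((reducesTo_int W A).sCoord_ne_zero (hall _ hP₀tor) hP₀0)
  have hquot : ∀ P : PointQBar W, (p : ℤ) • P = 0 → P ≠ 0 →
      A.valuation (sCoord P / sCoord w.1) = 1 := fun P hP hP0 => by
    rw [map_div₀, div_eq_one_iff_eq hvπ]
    exact (pow_left_inj₀ zero_le zero_le hn0).mp
      ((hval P hP hP0).trans (hval _ hP₀tor hP₀0).symm)
  refine ⟨w.1, hP₀tor, hP₀0, hval _ hP₀tor hP₀0, hquot, fun P hP => ?_⟩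
  rcases eq_or_ne P 0 with rfl | hP0
  · rw [sCoord_zero, zero_div]; exact zero_mem A
  · exact (A.valuation_le_one_iff _).mp (hquot P hP hP0).le

/-- Inertia acts on the leading term of `π`, where `v π ^ n = v p`, through a character killed by
`n`. -/
private theorem exists_leading_char {π : QBar} (hπ0 : π ≠ 0) {n : ℕ}
    (hπn : A.valuation π ^ n = A.valuation (p : QBar)) (hψA : ∀ τ : GQ, τ π / π ∈ A) :
    ∃ ψ : A.inertiaSubgroupIn ℚ →* (IsLocalRing.ResidueField A)ˣ,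
      (∀ τ, (ψ τ : IsLocalRing.ResidueField A) = res A ((τ : GQ) π / π)) ∧ ∀ τ, ψ τ ^ n = 1 := by
  have hp : p.Prime := Fact.out
  let ψ₀ : A.inertiaSubgroupIn ℚ →* IsLocalRing.ResidueField A :=
    { toFun := fun τ => res A ((τ : GQ) π / π)
      map_one' := by simp [div_self hπ0, res_one]
      map_mul' := fun σ τ => by
        obtain ⟨hσA, hσr⟩ := res_inertia_map σ.2 (hψA (τ : GQ))
        have e : ((σ * τ : A.inertiaSubgroupIn ℚ) : GQ) π / π =
            (σ : GQ) ((τ : GQ) π / π) * ((σ : GQ) π / π) := by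
          have : (σ : GQ) π ≠ 0 := (map_ne_zero _).mpr hπ0
          rw [map_div₀]
          show (σ : GQ) ((τ : GQ) π) / π = _
          field_simp
        rw [e, res_mul hσA (hψA _), hσr, mul_comm] }
  refine ⟨MonoidHom.toHomUnits ψ₀, fun τ => rfl, fun τ => Units.ext ?_⟩
  set u := π ^ n / (p : QBar) with hu
  have hpv : A.valuation (p : QBar) ≠ 0 :=
    (Valuation.ne_zero_iff _).mpr (Nat.cast_ne_zero.mpr hp.ne_zero)
  have huv : A.valuation u = 1 := by rw [hu, map_div₀, map_pow, hπn, div_self hpv]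
  obtain ⟨huA, hur⟩ := res_ne_zero_of_valuation_eq_one huv
  obtain ⟨hτuA, hτur⟩ := res_inertia_map τ.2 huA
  have e : ((τ : GQ) π / π) ^ n * u = (τ : GQ) u := by
    rw [hu, map_div₀, map_pow, map_natCast, div_pow]
    field_simp
  show res A ((τ : GQ) π / π) ^ n = 1
  refine mul_right_cancel₀ hur ?_
  rw [← res_pow (hψA _), ← res_mul (pow_mem (hψA _) n) huA, e, hτur, one_mul]

omit [Fact p.Prime] in
/-- An inertia element fixing the leading term of `π` fixes the torsion, if all torsion reduces to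
the origin and has parameters which are units times `π`. -/
private theorem smul_eq_self_of_res_eq_one [(W.map (Int.castRingHom ℚ)).IsElliptic]
    (hall : ∀ P : PointQBar W, (p : ℤ) • P = 0 → InE1 A P) {π : QBar} (hπA : π ∈ A.nonunits)
    (hπ0 : π ≠ 0)
    (hquot : ∀ P : PointQBar W, (p : ℤ) • P = 0 → P ≠ 0 → A.valuation (sCoord P / π) = 1)
    (hquotA : ∀ P : PointQBar W, (p : ℤ) • P = 0 → sCoord P / π ∈ A) {τ : GQ}
    (hτI : τ ∈ A.inertiaSubgroupIn ℚ) (hψA : τ π / π ∈ A) (hτ : res A (τ π / π) = 1)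
    {P : PointQBar W} (hP : (p : ℤ) • P = 0) : τ • P = P := by
  set Q := τ • P - P with hQ
  have hQtor : (p : ℤ) • Q = 0 := by
    rw [hQ, zsmul_sub, ← smul_zsmul_point, hP, smul_zero_point, sub_zero]
  by_contra hne
  have hQ0 : Q ≠ 0 := sub_ne_zero.mpr hne
  obtain ⟨-, hadd⟩ := res_sCoord_add_div (reducesTo_int W A) (hall _ hP) (hall _ hQtor) hπA hπ0
    (hquotA _ hP) (hquotA _ hQtor)
  have e : sCoord (P + Q) / π = τ (sCoord P / π) * (τ π / π) := by
    have : τ π ≠ 0 := (map_ne_zero _).mpr hπ0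
    rw [hQ, add_sub_cancel, sCoord_smul, map_div₀]
    field_simp
  obtain ⟨hτA, hτr⟩ := res_inertia_map hτI (hquotA _ hP)
  rw [e, res_mul hτA hψA, hτr, hτ, mul_one, left_eq_add] at hadd
  exact (res_ne_zero_of_valuation_eq_one (hquot _ hQtor hQ0)).2 hadd

/-- A character with values in the roots of unity of a domain has a generator modulo its
kernel. -/
private theorem exists_generator_mod_ker {G R : Type*} [Group G] [CommRing R] [IsDomain R]
    (ψ : G →* Rˣ) {n : ℕ} (hn0 : 0 < n) (hψn : ∀ g, ψ g ^ n = 1) :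
    ∃ g₀ : G, ∀ g : G, ∃ i : ℕ, ψ ((g₀ ^ i)⁻¹ * g) = 1 := by
  have : NeZero n := ⟨hn0.ne'⟩
  have hle : ψ.range ≤ rootsOfUnity n R := by
    rintro _ ⟨g, rfl⟩
    rw [mem_rootsOfUnity]
    exact hψn g
  have : Finite ψ.range := Finite.of_injective _ (Subgroup.inclusion_injective hle)
  have : IsCyclic ψ.range :=
    isCyclic_of_injective (Subgroup.inclusion hle) (Subgroup.inclusion_injective hle)
  obtain ⟨⟨u, g₀, rfl⟩, hu⟩ := IsCyclic.exists_generator (α := ψ.range)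
  refine ⟨g₀, fun g => ?_⟩
  obtain ⟨i, hi⟩ := mem_powers_iff_mem_zpowers.mpr (hu ⟨ψ g, g, rfl⟩)
  have hi' : ψ g₀ ^ i = ψ g := congrArg Subtype.val hi
  exact ⟨i, by rw [map_mul, map_inv, map_pow, hi', inv_mul_cancel]⟩

/-- If all `p`-torsion reduces to the origin, the field of `E[p]` is tame. -/
theorem exists_coefField_of_forall_inE1 (hA : A.LiesOverPrime p) (hp2 : p ≠ 2) (hΔ0 : W.Δ ≠ 0)
    (hgood : ¬ (p : ℤ) ∣ W.Δ) (hall : ∀ P : PointQBar W, (p : ℤ) • P = 0 → InE1 A P) :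
    ∃ C : CoefField A p, ¬ p ∣ C.e ∧
      ∀ τ ∈ C.H, ∀ x : PointQBar W, (p : ℤ) • x = 0 → τ • x = x := by
  classical
  have hp : p.Prime := Fact.out
  have : (W.map (Int.castRingHom ℚ)).IsElliptic :=
    ⟨isUnit_iff_ne_zero.mpr (by rw [map_Δ, eq_intCast]; exact Int.cast_ne_zero.mpr hΔ0)⟩
  set n := p ^ 2 - 1 with hn
  have hn0 : 0 < n := by
    have : 4 ≤ p ^ 2 := by nlinarith [hp.two_le]
    omega
  obtain ⟨P₀, hP₀tor, hP₀0, hπn, hquot, hquotA⟩ := exists_uniform_param hA hp2 hΔ0 hgood hall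
  -- `π`, the parameter of `P₀`, has normalised valuation `1 / (p ^ 2 - 1)`
  set π := sCoord P₀ with hπdef
  have hπ0 : π ≠ 0 := (reducesTo_int W A).sCoord_ne_zero (hall _ hP₀tor) hP₀0
  have hπA : π ∈ A.nonunits := (reducesTo_int W A).sCoord_mem (hall _ hP₀tor)
  have htor : ∀ (τ : GQ) (P : PointQBar W), (p : ℤ) • P = 0 → (p : ℤ) • (τ • P) = 0 :=
    fun τ P hP => by rw [← smul_zsmul_point, hP, smul_zero_point]
  have hψA : ∀ τ : GQ, τ π / π ∈ A := fun τ => by
    rw [show τ π / π = sCoord (τ • P₀) / π by rw [hπdef, sCoord_smul]]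
    exact hquotA _ (htor τ _ hP₀tor)
  let I := A.inertiaSubgroupIn ℚ
  -- the leading character of inertia at `π` has order dividing `n`; its kernel fixes `E[p]`
  obtain ⟨ψ, hψ, hψn⟩ := exists_leading_char hπ0 hπn hψA
  have hker : ∀ τ : I, ψ τ = 1 → ∀ P : PointQBar W, (p : ℤ) • P = 0 → (τ : GQ) • P = P :=
    fun τ hτ P hP => smul_eq_self_of_res_eq_one hall hπA hπ0 hquot hquotA τ.2 (hψA _)
      ((hψ τ).symm.trans (congrArg Units.val hτ)) hP
  -- `H`: the inertia elements fixing `E[p]`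
  let H : Subgroup GQ :=
    { carrier := {τ | τ ∈ I ∧ ∀ x : PointQBar W, (p : ℤ) • x = 0 → τ • x = x}
      one_mem' := ⟨one_mem _, fun x _ => one_smul GQ x⟩
      mul_mem' := fun {a b} ha hb => ⟨mul_mem ha.1 hb.1, fun x hx => by
        rw [mul_smul, hb.2 x hx, ha.2 x hx]⟩
      inv_mem' := fun {a} ha => ⟨inv_mem ha.1, fun x hx => by
        rw [inv_smul_eq_iff, ha.2 x hx]⟩ }
  have hπH : ∀ τ ∈ H, τ π = π := fun τ hτ => by
    rw [hπdef, ← sCoord_smul, hτ.2 _ hP₀tor]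
  -- inertia modulo `H` is cyclic of order dividing `n`, so the field is tame
  obtain ⟨τ₀, hτ₀⟩ := exists_generator_mod_ker ψ hn0 hψn
  have hgen : ∀ τ ∈ I, ∃ i : ℕ, ((τ₀ : GQ) ^ i)⁻¹ * τ ∈ H := fun τ hτ =>
    (hτ₀ ⟨τ, hτ⟩).imp fun i hi => ⟨((τ₀ ^ i)⁻¹ * ⟨τ, hτ⟩ : I).2, hker _ hi⟩
  have hpow : (τ₀ : GQ) ^ n ∈ H :=
    ⟨(τ₀ ^ n : I).2, hker (τ₀ ^ n) (by rw [map_pow, hψn])⟩
  have hnorm : ∀ h ∈ H, (τ₀ : GQ)⁻¹ * h * τ₀ ∈ H := fun h hh =>
    ⟨mul_mem (mul_mem (inv_mem τ₀.2) hh.1) τ₀.2, fun x hx => by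
      rw [mul_smul, mul_smul, hh.2 _ (htor _ _ hx), inv_smul_smul]⟩
  refine ⟨{ H := H, le_inertia := fun τ hτ => hτ.1, π := π, π_ne_zero := hπ0, π_nonunit := hπA
            π_fixed := hπH, e := n, e_pos := hn0, val_p := hπn.symm
            discrete := fun x hx0 hx => ?_ }, ?_, fun τ hτ => hτ.2⟩
  · exact exists_zpow_of_cyclic hA τ₀.2 hn0 hnorm hpow hgen hπn hx0 hx
  · show ¬ p ∣ n
    intro hd
    have h1 : p ∣ n + 1 := by
      rw [hn, Nat.sub_add_cancel (Nat.one_le_pow _ _ hp.pos)]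
      exact dvd_pow_self p two_ne_zero
    exact hp.not_dvd_one ((Nat.dvd_add_right hd).mp h1)

end Fermat.Agent.RT.LowerPW

end
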