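import Fermat.Agent.RT.LowerPW.Flat
import Fermat.Agent.RT.LowerPW.Supersingular
import Fermat.Agent.RT.LowerPW.LocalGood

/-!
# Flatness of the residual classes of a curve with `E[p]` finite at `p`

A multiplicative peu ramifié place and a good ordinary one are tame or wild with jump one; a good
supersingular one is tame.
-/

set_option autoImplicit false

noncomputable section

open ModularCurve Fermat.Agent.Semistable

namespace Fermat.Agent.RT.LowerPW

open Fermat.Agent.RT.LowerP (ResData Ctx HasForm isFlatClass_of_fn)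
open Fermat.Agent.RT.MazurP
open Fermat.Agent.EC.Reduction (InE1)
open Fermat.Agent.EC.AtP (PointQBar)
open Arith (QBar GQ)
open Arith (cyclotomicHom)

variable {p : ℕ} [Fact p.Prime] {A : ValuationSubring QBar} {W : WeierstrassCurve ℤ}
  {M : ℕ} [NeZero M]

/-- Classes fixed by a field of tame ramification are flat. -/
theorem ResSubgroup.isFlatClass_of_tame {G : ℕ → Prop} {a : ℕ → ℤ} {D : ResData p G a}
    (R : ResSubgroup D (p * M)) {C : CoefField A p} (he : ¬ p ∣ C.e)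
    (hfix : ∀ τ ∈ C.H, D.r τ = 1) [CharP (Res A) p] [FF.IsFunctionField (Res A) (KM A M)]
    (S : Ctx A p M G a) (hno : ¬ HasForm p M G a) {x : JZero (p * M)} (hx : x ∈ R.U) :
    OrdinaryAtP.IsFlatClass A M p S.hpM x := by
  obtain ⟨f, hfn, -, hred⟩ := S.exists_flat_fn_tame (C := C) hno he (R.eigen x hx) (R.torsion x hx)
    fun τ hτ => R.ker τ (hfix τ hτ) x hx
  exact isFlatClass_of_fn hfn hred

variable (hΔ : W.Δ ≠ 0) (hp2 : p ≠ 2) (hirr : W.ModRepIsIrreducible p)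

/-- **The residual classes of a curve with `E[p]` finite at `p` are flat.** -/
theorem ResSubgroup.isFlatClass_of_curve (hsemi : (p : ℤ) ∣ W.Δ → ¬ (p : ℤ) ∣ W.c₄)
    (hfin : (p : ℤ) ∣ W.Δ → p ∣ padicValInt p W.Δ)
    (R : ResSubgroup (curveData hΔ hp2 hirr (p * M)) (p * M))
    [CharP (Res A) p] [FF.IsFunctionField (Res A) (KM A M)]
    (S : Ctx A p M (Good W p (p * M)) (ap W)) (hno : ¬ HasForm p M (Good W p (p * M)) (ap W))
    {x : JZero (p * M)} (hx : x ∈ R.U) : OrdinaryAtP.IsFlatClass A M p S.hpM x := by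
  have hD : ∀ σ, (∀ x : PointQBar W, (p : ℤ) • x = 0 → σ • x = x) →
      (curveData hΔ hp2 hirr (p * M)).r σ = 1 := fun σ h => curveMat_eq_one_of_fixed hΔ h
  by_cases hbad : (p : ℤ) ∣ W.Δ
  · exact R.isFlatClass hp2 hD
      (fun τ hτ => curveMat_inertia_of_mult S.hA hp2 hΔ hbad (hsemi hbad) hτ)
      (dichotomy_of_mult S.hA hp2 hΔ hbad (hsemi hbad) (hfin hbad)) S hno hx
  by_cases hall : ∀ P : PointQBar W, (p : ℤ) • P = 0 → InE1 A P
  · obtain ⟨C, he, hfix⟩ := exists_coefField_of_forall_inE1 S.hA hp2 hΔ hbad hall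
    exact R.isFlatClass_of_tame he (fun τ hτ => hD τ (hfix τ hτ)) S hno hx
  simp only [not_forall] at hall
  obtain ⟨P, hP, hP1⟩ := hall
  obtain ⟨F, -⟩ := exists_triFrame S.hA hp2 hΔ hbad hP hP1
  exact R.isFlatClass hp2 hD
    (fun τ hτ => ⟨(trace_curveMat hΔ τ).trans (trace_residualRep_of_triFrame hΔ F hτ),
      det_curveMat hΔ τ⟩)
    ((wildKer_eq_tameKer_or_exists_wild_of_good S.hA hp2 hΔ hbad hP hP1).imp id
      fun ⟨Wd, h, h1, _, hg⟩ => ⟨Wd, h, h1, hg⟩) S hno hx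

/-- Some inertia element over `p` acts on `E[p]` as a nonscalar: `χ` takes nonsquare values. -/
theorem exists_inertia_not_scalar (hA : A.LiesOverPrime p) (hp2 : p ≠ 2) :
    ∃ τ ∈ A.inertiaSubgroupIn ℚ, ∀ c : ZMod p, (curveMat hΔ τ : Matrix _ _ (ZMod p)) ≠ c • 1 := by
  obtain ⟨a, ha⟩ := FiniteField.exists_nonsquare (F := ZMod p)
    (by rw [ZMod.ringChar_zmod_n]; exact hp2)
  have ha0 : a ≠ 0 := fun h => ha (h ▸ ⟨0, by simp⟩)
  obtain ⟨τ, hτ, hχ⟩ := Arith.exists_mem_inertia_cyclotomicHom_eq hA (Units.mk0 a ha0)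
  refine ⟨τ, hτ, fun c hc => ha ⟨c, ?_⟩⟩
  have hd := det_curveMat (p := p) hΔ τ
  rw [hc, Matrix.det_smul, Matrix.det_one, mul_one, Fintype.card_fin, hχ, Units.val_mk0, pow_two]
    at hd
  exact hd.symm

end Fermat.Agent.RT.LowerPW

end
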