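import Fermat.Agent.RT.LowerP.Flat
import Fermat.Agent.RT.Mazur.HeckeEnd
import Fermat.Agent.NewformLocal.Oldness
import Fermat.Agent.NewformLocal.Toric.Model
import Fermat.Agent.HeckeDuality.DeligneSerre

/-!
# Eigen classes of level `p M` without eigenform of level `M` die at level `M`

If no eigenform of level `M` has the eigenvalues of a `p`-torsion class of level `p M`, some Hecke
operator kills the forms of level `M` and is invertible on the class, so both norms to level `M` of
its Kummer functions are `p`-th powers.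
-/

set_option autoImplicit false

noncomputable section

open ModularCurve AlgebraicCurve CongruenceSubgroup

namespace Fermat.Agent.RT.LowerPW

open Fermat.Agent.Semistable
open Fermat.Agent.GaloisReps (FullHecke toFull coord atkinHom JTors latticeMat)
open Fermat.Agent.JacTorsion (toTorsion divGrp torsionEquiv)
open Fermat.Agent.NewformLocal (levelPrimes)
open Fermat.Agent.NewformLocal.Toric (normUp monodromy)
open Fermat.Agent.RT.Mazur (heckeAct)
open Fermat.Agent.RT.LowerP (HasForm)
open Arith (QBar GQ)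

variable {p M : ℕ} [Fact p.Prime] [NeZero M]

/-- The Hecke algebra away from a set containing the primes of `p M` restricts onto the one of
level `M`. -/
theorem exists_restrictHom (S : Set ℕ) (hS : levelPrimes (p * M) ⊆ S) :
    ∃ r : CuspForm.heckeAlgebra (p * M) 2 S →+* CuspForm.heckeAlgebra M 2 S,
      Function.Surjective r ∧
      (∀ t f, t.1 (Newforms.levelIncl (dvd_mul_left M p) f) =
        Newforms.levelIncl (dvd_mul_left M p) ((r t).1 f)) ∧
      ∀ (l : ℕ) (hl : l.Prime) (h : ¬ l ∣ p * M) (h' : ¬ l ∣ M) (hlS : l ∉ S),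
        r (CuspForm.heckeAlgebra.T hl h hlS) = CuspForm.heckeAlgebra.T hl h' hlS := by
  obtain ⟨r, hsurj, hres, hrT⟩ := Newforms.exists_restrictHom_surjective
    (dvd_mul_left M p) (S := S) fun _ _ h => hS h
  exact ⟨r, hsurj, hres, fun l hl h _ hlS => hrT l hl h hlS⟩

/-- A character mod `p` of the algebra of level `M` gives a form. -/
theorem hasForm_of_character {S : Set ℕ} {G : ℕ → Prop} {a : ℕ → ℤ}
    (χ : CuspForm.heckeAlgebra M 2 S →+* ZMod p)
    (hG : ∀ l, l.Prime → G l → ¬ l ∣ M ∧ l ∉ S)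
    (hχ : ∀ (l : ℕ) (hl : l.Prime) (hGl : G l),
      χ (CuspForm.heckeAlgebra.T hl (hG l hl hGl).1 (hG l hl hGl).2) = a l) :
    HasForm p M G a := by
  classical
  obtain ⟨θ, hθ⟩ := GaloisReps.exists_extend_character S
    ((algebraMap (ZMod p) (AlgebraicClosure (ZMod p))).comp χ)
  have : Module.Finite ℤ (FullHecke M) := IntegralStructure.heckeAlgebra_finite M 2 ∅
  have : CharP (AlgebraicClosure (ZMod p)) p :=
    charP_of_injective_algebraMap (algebraMap (ZMod p) _).injective p
  let 𝔭 := RingHom.ker θ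
  have h𝔭 : 𝔭.IsPrime := RingHom.ker_isPrime θ
  have hp0 : ((p : ℕ) : FullHecke M ⧸ 𝔭) = 0 := by
    rw [← map_natCast (Ideal.Quotient.mk 𝔭), Ideal.Quotient.eq_zero_iff_mem, RingHom.mem_ker,
      map_natCast]
    exact CharP.cast_eq_zero _ _
  have hchar : CharP (FullHecke M ⧸ 𝔭) p := (CharP.charP_iff_prime_eq_zero Fact.out).mpr hp0
  have hfin : Finite (FullHecke M ⧸ 𝔭) := by
    let : Algebra (ZMod p) (FullHecke M ⧸ 𝔭) := ZMod.algebra _ p
    have : Module.Finite ℤ (FullHecke M ⧸ 𝔭) := Module.Finite.quotient ℤ _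
    have : Module.Finite (ZMod p) (FullHecke M ⧸ 𝔭) := Module.Finite.of_restrictScalars_finite ℤ _ _
    exact Module.finite_of_finite (ZMod p)
  have : 𝔭.IsMaximal := Ideal.Quotient.maximal_of_isField _ (Finite.isField_of_domain _)
  let : Field (FullHecke M ⧸ 𝔭) := Ideal.Quotient.field 𝔭
  have : CharP (FullHecke M ⧸ 𝔭) p := hchar
  obtain ⟨g, hg, 𝔪, h𝔪, hp𝔪, hcong⟩ :=
    HeckeDuality.exists_eigenform_lifting (p := p) (Ideal.Quotient.mk 𝔭)
  refine ⟨g, hg, 𝔪, h𝔪, hp𝔪, fun l hl hGl => hcong l hl (a l) ?_⟩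
  rw [← map_intCast (Ideal.Quotient.mk 𝔭), Ideal.Quotient.eq, RingHom.mem_ker, map_sub,
    ← GaloisReps.toFull_T (S := S) hl (hG l hl hGl).1 (hG l hl hGl).2, hθ, RingHom.comp_apply,
    hχ l hl hGl,
    map_intCast, map_intCast, sub_self]

/-- An eigen point of prime order spans a line stable under the Hecke algebra, which therefore
acts on it through a character. -/
private theorem exists_eigen_character {S : Set ℕ} (hS : levelPrimes (p * M) ⊆ S)
    {x : JZero (p * M)} (hpx : p • x = 0) (hx0 : x ≠ 0) {a : ℕ → ℤ}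
    (hx : ∀ (l : ℕ) (hl : l.Prime), l ∉ S → heckeOperatorBar (p * M) ⟨l, hl⟩ x = a l • x) :
    ∃ χ : CuspForm.heckeAlgebra (p * M) 2 S →+* ZMod p,
      (∀ t, ∃ c : ℤ, heckeAct (p * M) (toFull S t) x = c • x ∧ χ t = c) ∧
      ∀ (l : ℕ) (hl : l.Prime) (h : ¬ l ∣ p * M) (hlS : l ∉ S),
        χ (CuspForm.heckeAlgebra.T hl h hlS) = a l := by
  have hker : ∀ c : ℤ, c • x = 0 ↔ (c : ZMod p) = 0 := fun c => by
    rw [ZMod.intCast_zmod_eq_zero_iff_dvd, ← addOrderOf_dvd_iff_zsmul_eq_zero,
      addOrderOf_eq_prime hpx hx0]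
  -- each operator multiplies `x` by an integer
  have hscal : ∀ t : CuspForm.heckeAlgebra (p * M) 2 S, ∃ c : ℤ,
      heckeAct (p * M) (toFull S t) x = c • x := by
    rintro ⟨t, ht⟩
    induction ht using Algebra.adjoin_induction with
    | mem y hy =>
      rcases hy with ⟨l, hl, hlN, hlS, rfl⟩ | ⟨q, hqN, -, hqS, rfl⟩
      · refine ⟨a l, ?_⟩
        have e := GaloisReps.toFull_T (N := p * M) (S := S) hl hlN hlS
        exact ((congrArg (fun t => heckeAct (p * M) t x) e).trans
          (congrArg (fun φ => φ x) (Mazur.heckeAct_heckeOp l hl))).trans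
            (hx l hl hlS)
      · exact absurd (hS hqN) hqS
    | algebraMap z =>
      refine ⟨z, ?_⟩
      show heckeAct (p * M) (toFull S (algebraMap ℤ (CuspForm.heckeAlgebra (p * M) 2 S) z)) _ = _
      rw [AlgHom.commutes, eq_intCast, map_intCast, Module.End.intCast_apply]
    | add y z hy' hz' hy hz =>
      obtain ⟨c, hc⟩ := hy
      obtain ⟨d, hd⟩ := hz
      refine ⟨c + d, ?_⟩
      show heckeAct (p * M) (toFull S ((⟨y, hy'⟩ : CuspForm.heckeAlgebra (p * M) 2 S)
        + ⟨z, hz'⟩)) _ = _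
      rw [map_add, map_add, LinearMap.add_apply, hc, hd, add_zsmul]
    | mul y z hy' hz' hy hz =>
      obtain ⟨c, hc⟩ := hy
      obtain ⟨d, hd⟩ := hz
      refine ⟨c * d, ?_⟩
      show heckeAct (p * M) (toFull S ((⟨y, hy'⟩ : CuspForm.heckeAlgebra (p * M) 2 S) * ⟨z, hz'⟩))
        _ = _
      rw [map_mul, map_mul, Module.End.mul_apply, hd, map_zsmul, hc, ← mul_zsmul, mul_comm d c]
  choose c hc using hscal
  have huniq : ∀ t (d : ℤ), heckeAct (p * M) (toFull S t) x =
      d • x → (c t : ZMod p) = d := fun t d hd => by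
    rw [← sub_eq_zero, ← Int.cast_sub, ← hker, sub_zsmul, ← hc, hd]
    abel
  -- which is well defined modulo `p`, the order of `x`
  let χ : CuspForm.heckeAlgebra (p * M) 2 S →+* ZMod p :=
    { toFun := fun t => (c t : ZMod p)
      map_one' := (huniq 1 1 (by rw [map_one, map_one, Module.End.one_apply, one_zsmul])).trans
        Int.cast_one
      map_mul' := fun s t => (huniq (s * t) (c s * c t) (by
        rw [map_mul, map_mul, Module.End.mul_apply, hc, map_zsmul, hc, ← mul_zsmul,
          mul_comm (c t)])).trans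
          (Int.cast_mul _ _)
      map_zero' := (huniq 0 0 (by rw [map_zero, map_zero, LinearMap.zero_apply, zero_zsmul])).trans
        Int.cast_zero
      map_add' := fun s t => (huniq (s + t) (c s + c t) (by
        rw [map_add, map_add, LinearMap.add_apply, hc, hc, add_zsmul])).trans (Int.cast_add _ _) }
  refine ⟨χ, fun t => ⟨c t, hc t, rfl⟩, fun l hl h hlS => huniq _ (a l) ?_⟩
  rw [GaloisReps.toFull_T, Mazur.heckeAct_heckeOp]
  exact hx l hl hlS

/-- **Eigen classes without form of level `M` have both norms `p`-th powers.** -/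
theorem exists_norms_eq_pow_of_eigen (hpM : ¬ p ∣ M) {G : ℕ → Prop} {a : ℕ → ℤ}
    (hG : ∀ l, l.Prime → G l → ¬ l ∣ p * M) (hno : ¬ HasForm p M G a)
    (f : divGrp QBar (FB (p * M)) (p ^ 1))
    (hx : ∀ (l : ℕ) (hl : l.Prime), G l →
      heckeOperatorBar (p * M) ⟨l, hl⟩
          ((toTorsion (Additive.ofMul f) : JTors (p * M) p 1) : JZero (p * M)) =
        a l • ((toTorsion (Additive.ofMul f) : JTors (p * M) p 1) : JZero (p * M))) :
    (∃ g : FB M, g ≠ 0 ∧ normUp p M ((f : (FB (p * M))ˣ) : FB (p * M)) = g ^ p) ∧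
      ∃ g : FB M, g ≠ 0 ∧
        normUp p M (wEquiv p M hpM ((f : (FB (p * M))ˣ) : FB (p * M))) = g ^ p := by
  classical
  set X : JTors (p * M) p 1 := toTorsion (Additive.ofMul f) with hX
  have h := NewformLocal.Toric.raiseData (q := p) (M := M) hpM
  -- it suffices that both degeneracy maps kill the monodromy
  obtain ⟨C, Sy, W, hS⟩ := NewformLocal.Toric.exists_degeneracySystems h (mul_comm p M)
  suffices hz : C.apply (monodromy f) = 0 ∧ Sy.apply (monodromy f) = 0 by
    obtain ⟨⟨g, hg, hN⟩, g', hg', hN'⟩ :=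
      NewformLocal.Toric.exists_norms_eq_pow hpM hS f hz.1 hz.2
    exact ⟨⟨g, hg, hN.trans (by rw [pow_one])⟩, g', hg', hN'.trans (by rw [pow_one])⟩
  have hmon : atkinHom (p * M) (ZMod (p ^ 1))
      (((torsionEquiv (p * M) (p ^ 1)).trans (GaloisReps.atkinEquiv (p * M) (ZMod (p ^ 1)))) X).1 =
        monodromy f := by
    show atkinHom _ _ (atkinHom _ _ (torsionEquiv (p * M) (p ^ 1) X).1) = _
    rw [GaloisReps.atkinHom_atkinHom]
    rfl
  rw [← hmon]
  by_cases hX0 : (X : JZero (p * M)) = 0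
  · rw [show X = 0 from Subtype.ext hX0, map_zero]
    simp only [AddSubgroup.coe_zero, map_zero]
    constructor <;> ext g <;> simp [Periods.HeckeSystem.apply]
  have hpX : p • (X : JZero (p * M)) = 0 := by
    have := Pic0.mem_torsion.mp X.2
    rwa [natCast_zsmul, pow_one] at this
  have hker : ∀ c : ℤ, c • (X : JZero (p * M)) = 0 ↔ (c : ZMod p) = 0 := fun c => by
    rw [ZMod.intCast_zmod_eq_zero_iff_dvd, ← addOrderOf_dvd_iff_zsmul_eq_zero,
      addOrderOf_eq_prime hpX hX0]
  -- the Hecke algebra away from `S` acts on `X` by a character `χ`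
  let S : Set ℕ := {l | ¬ G l} ∪ levelPrimes (p * M)
  have hGS : ∀ l, l.Prime → G l → ¬ l ∣ M ∧ l ∉ S := fun l hl hGl =>
    ⟨fun hd => hG l hl hGl (dvd_mul_of_dvd_right hd p),
      fun hm => hm.elim (fun hn => hn hGl) (hG l hl hGl)⟩
  obtain ⟨χ, hc, hχT⟩ := exists_eigen_character (S := S) Set.subset_union_right hpX hX0
    fun l hl hlS => hx l hl (not_not.mp fun hn => hlS (Or.inl hn))
  choose c hc hχc using hc
  obtain ⟨r, hsurj, hres, hrT⟩ := exists_restrictHom (p := p) (M := M) S Set.subset_union_right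
  -- which is not a character of level `M`: some `t` dies at level `M` and is invertible on `X`
  obtain ⟨t, hrt, hχt⟩ : ∃ t, r t = 0 ∧ χ t ≠ 0 := by
    by_contra hall
    simp only [not_exists, not_and, not_not] at hall
    refine hno (hasForm_of_character (RingHom.liftOfSurjective r hsurj ⟨χ, hall⟩) hGS
      fun l hl hGl => ?_)
    rw [← hrT l hl (hG l hl hGl) (hGS l hl hGl).1 (hGS l hl hGl).2,
      RingHom.liftOfRightInverse_comp_apply _ _ _ ⟨χ, hall⟩]
    exact hχT l hl _ _
  rw [hχc] at hχt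
  obtain ⟨d, hd⟩ := ZMod.intCast_surjective ((c t : ZMod p)⁻¹)
  have hX' : heckeAct (p * M) (toFull S t) ((d • X : JTors (p * M) p 1) : JZero (p * M)) =
      (X : JZero (p * M)) := by
    rw [AddSubgroup.coe_zsmul, map_zsmul, hc, ← mul_zsmul, ← sub_eq_zero]
    nth_rw 2 [← one_zsmul (X : JZero (p * M))]
    rw [← sub_smul, hker]
    push_cast
    rw [hd, sub_eq_zero]
    exact inv_mul_cancel₀ hχt
  -- so `X` is in the image of `t`
  have hcoord := (Mazur.isAction_choose (toFull S t)).coord_eq (p ^ 1) (d • X) X hX'.symm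
  have hsub : levelPrimes (p * M) ⊆ S := Set.subset_union_right
  let t' : CuspForm.heckeAlgebra (p * M) 2 (levelPrimes (p * M)) :=
    Subalgebra.inclusion (CuspForm.heckeAlgebra_mono hsub) t
  refine NewformLocal.Toric.degeneracy_eq_zero' h (mul_comm p M) (dvd_mul_left M p) t'
    (fun g => ?_) (((torsionEquiv (p * M) (p ^ 1)).trans
      (GaloisReps.atkinEquiv (p * M) (ZMod (p ^ 1)))) X).2
      (Mazur.tCoord (p * M) (p ^ 1) (d • X)) ?_ hS
  · show t.1 _ = 0
    rw [hres, hrt]
    simp
  · have e : toFull (levelPrimes (p * M)) t' = toFull S t := Subtype.ext rfl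
    rw [e]
    exact hcoord

end Fermat.Agent.RT.LowerPW

end
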