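import Fermat.Agent.RT.LowerP.Flat
import Fermat.Agent.RT.LowerB.Levels
import Fermat.Agent.RT.Mazur.CurveCaseA
import Fermat.Agent.RT.Mazur.EllOrd
import Mathlib.NumberTheory.LSeries.PrimesInAP

/-!
# An auxiliary prime removing the elliptic points

For a prime `r ≡ -1` modulo `12 p` the level `N r` has no elliptic points. A curve residually
modular of level `p N` is so of level `p N r`; once `p` is lowered there, `r` leaves the level by
Mazur's principle, `r` being good and `r ≢ 1` modulo `p`.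
-/

set_option autoImplicit false

noncomputable section

open ModularCurve

namespace Fermat.Agent.RT.LowerPW

/-- A congruent eigenform of level `M` makes the curve residually modular of level `M`. -/
theorem residuallyModular_of_hasForm {W : WeierstrassCurve ℤ} {p M : ℕ} [Fact p.Prime] [NeZero M]
    (hΔ : W.Δ ≠ 0) {G : ℕ → Prop} {T : Finset ℕ} (hG : ∀ l, l.Prime → l ∉ T → G l)
    (h : LowerP.HasForm p M G (fun l => W.apOfModel l)) : W.IsResiduallyModularOfLevel p M := by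
  obtain ⟨g, hg, 𝔪, h𝔪, hp, hcong⟩ := h
  exact Mazur.isResiduallyModular_of_outside hΔ GaloisReps.models
    ⟨g, hg, 𝔪, T, h𝔪, hp, fun l hl hlT => hcong l hl (hG l hl hlT)⟩

/-- A prime `r ≡ -1` modulo `12 p` above a bound. -/
theorem exists_aux_prime {p : ℕ} (hp : 0 < p) (B : ℕ) :
    ∃ r : ℕ, r.Prime ∧ B < r ∧ r % 12 = 11 ∧ (r : ZMod p) = -1 := by
  have hq : 12 * p ≠ 0 := by omega
  obtain ⟨r, hrB, hr, hmod⟩ := Nat.forall_exists_prime_gt_and_zmodEq B (q := 12 * p) (a := -1) hq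
    isCoprime_one_left.neg_left
  have h1 : ((r : ℕ) : ℤ) ≡ -1 [ZMOD ((12 * p : ℕ) : ℤ)] := hmod
  have h12 : (r : ℤ) ≡ -1 [ZMOD (12 : ℤ)] := h1.of_dvd ⟨p, by push_cast; ring⟩
  have hp' : (r : ℤ) ≡ -1 [ZMOD (p : ℤ)] := h1.of_dvd ⟨12, by push_cast; ring⟩
  refine ⟨r, hr, hrB, ?_, ?_⟩
  · have e : (r : ℤ) % 12 = -1 % 12 := h12
    omega
  · have e := (ZMod.intCast_eq_intCast_iff _ _ p).mpr hp'
    push_cast at e
    exact e

/-- **The rigidification.** Lowering at `p` at the levels without elliptic points gives lowering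
at every level prime to `p`. -/
theorem lower_at_p_of_forall_noEll {W : WeierstrassCurve ℤ} {p : ℕ} [Fact p.Prime] (hΔ : W.Δ ≠ 0)
    (hp2 : p ≠ 2)
    (hirr : W.ModRepIsIrreducible p) {N : ℕ} (hN : N ≠ 0) (hpN : ¬ p ∣ N)
    (key : ∀ M : ℕ, [NeZero M] → ¬ p ∣ M → nuTwo M = 0 ∧ nuThree M = 0 →
      W.IsResiduallyModularOfLevel p (p * M) → W.IsResiduallyModularOfLevel p M)
    (hmod : W.IsResiduallyModularOfLevel p (p * N)) : W.IsResiduallyModularOfLevel p N := by
  have hp : p.Prime := Fact.out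
  have : NeZero N := ⟨hN⟩
  obtain ⟨r, hr, hrB, hr12, hrp⟩ := exists_aux_prime hp.pos (p * N * W.Δ.natAbs)
  have hpN0 : p * N ≠ 0 := mul_ne_zero hp.ne_zero hN
  have hΔ0 : W.Δ.natAbs ≠ 0 := Int.natAbs_ne_zero.mpr hΔ
  have hlt : ∀ d, d ∣ p * N * W.Δ.natAbs → d < r := fun d hd =>
    (Nat.le_of_dvd (Nat.pos_of_ne_zero (mul_ne_zero hpN0 hΔ0)) hd).trans_lt hrB
  have hrpN : ¬ r ∣ p * N := fun h => lt_irrefl r (hlt r (h.mul_right _))
  have hgood : W.IsGoodPrimeFor r := fun h =>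
    lt_irrefl r (hlt r ((Int.natCast_dvd.mp h).mul_left _))
  have hrne : r ≠ p := fun h => hrpN (h ▸ dvd_mul_right p N)
  have hrN : ¬ r ∣ N := fun h => hrpN (h.mul_left p)
  have : NeZero (N * r) := ⟨mul_ne_zero hN hr.ne_zero⟩
  -- raise the level by `r`: the level `N r` has no elliptic points, so `p` leaves it
  have hraise : W.IsResiduallyModularOfLevel p (p * (N * r)) := by
    rw [← mul_assoc]
    exact LowerB.residuallyModular_raise hΔ (ZMod p) hpN0 hr hrpN hmod
  have hpNr : ¬ p ∣ N * r := fun h => (hp.dvd_mul.mp h).elim hpN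
    fun h' => hrne ((Nat.prime_dvd_prime_iff_eq hp hr).mp h').symm
  have hlow := key (N * r) hpNr
    (Mazur.noEll_of_prime_eleven hr hr12 (dvd_mul_left r N)) hraise
  rw [mul_comm] at hlow
  -- `r ≡ -1 ≢ 1` modulo `p`, so Mazur's principle removes `r` again
  obtain ⟨A, hA⟩ := Arith.exists_liesOverPrime hr
  obtain ⟨σ, hσ⟩ := Arith.exists_isFrobeniusAt hA hr
  have hns : (r : ZMod p) ≠ 1 := fun h => EC.Rep.two_ne_zero_zmod hp2 (by
    rw [hrp] at h
    linear_combination -h)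
  have hunr := EC.Rep.isUnramifiedAt_residualRep (W := W) (hΔ := hΔ) hr hgood hrne
  by_cases hp3 : p = 3
  · subst hp3
    refine Mazur.lower_of_eigenOrd hp2 hr hrne hrN hirr hlow hunr hA hσ (Or.inr hns)
      fun {_} {_} {_} hM T => ?_
    exact Mazur.eigenOrd_three_ell hΔ hirr hA hM (by omega) hpN T
  · have h2 := hp.two_le
    have h4 : p ≠ 4 := fun h => absurd (h ▸ hp) (by norm_num)
    exact Mazur.lower_nonscalar (by omega) hr hrne hrN hirr hlow hunr hA hσ (Or.inr hns)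

end Fermat.Agent.RT.LowerPW

end
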