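import Fermat.Agent.RT.LowerPW.FlatCurve
import Fermat.Agent.RT.LowerPW.Kills
import Fermat.Agent.RT.LowerPW.Rigid
import Fermat.Agent.RT.AtP.Mult.Main
import Fermat.Agent.RT.AtP.Meeting
import Fermat.Agent.OrdinaryAtP.NoQuotient

/-!
# Lowering the level at `p` for a curve with `E[p]` finite at `p`

`lower_at_p`: for an odd `p` exactly dividing a level of residual modularity of a model with
irreducible `E[p]`, semistable and finite at `p`, the prime `p` leaves the level (S39, S40).

1. An auxiliary prime reduces this to a level `p M` without elliptic points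
   (`lower_at_p_of_forall_noEll` in `RT/LowerPW/Rigid`).
2. There, without a congruent eigenform of level `M`, the residual subgroup consists of flat
   classes (`isFlatClass_of_curve`) dying at level `M` (`ResSubgroup.normPow`).
3. Inertia at `p` would then act on it through scalars (`AtP.inertia_smul_eq`), against the
   representation on `E[p]` (`lower_noEll`).

## References

* K. Ribet, *On modular representations of Gal(Q̄/Q) arising from modular forms*, Invent. Math.
  (1990).

As in `RT/LowerP/Main`, Néron models are not used. The count on the reduced curve needs a level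
without elliptic points, whence the auxiliary prime of `RT/LowerPW/Rigid`.
-/

set_option autoImplicit false

noncomputable section

open ModularCurve AlgebraicCurve Fermat.Agent.Semistable

namespace Fermat.Agent.RT.LowerPW

open Fermat.Agent.RT.LowerP (HasForm Ctx)
open Arith (apply_root_eq_pow_cyclotomicHom)
open Fermat.Agent.GaloisReps (JTors)
open Fermat.Agent.JacTorsion (toTorsion)
open Arith (QBar GQ)
open Arith (cyclotomicHom)

variable {W : WeierstrassCurve ℤ} {p : ℕ} [Fact p.Prime]

/-- Without a form of level `M`, the classes of the residual subgroup die at level `M`. -/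
theorem ResSubgroup.normPow (hΔ : W.Δ ≠ 0) (hp2 : p ≠ 2) (hirr : W.ModRepIsIrreducible p)
    {M : ℕ} [NeZero M] (hpM : ¬ p ∣ M)
    (R : ResSubgroup (curveData hΔ hp2 hirr (p * M)) (p * M))
    (hno : ¬ HasForm p M (Good W p (p * M)) (ap W)) {x : JZero (p * M)} (hx : x ∈ R.U) :
    AtP.NormPow hpM x := by
  let X : JTors (p * M) p 1 :=
    ⟨x, Pic0.mem_torsion.mpr (by rw [pow_one, natCast_zsmul]; exact R.torsion x hx)⟩
  obtain ⟨f, hf⟩ := JacTorsion.toTorsion_surjective X
  obtain ⟨f, rfl⟩ : ∃ g, Additive.ofMul g = f := ⟨f.toMul, rfl⟩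
  have hfx : ((toTorsion (Additive.ofMul f) : JTors (p * M) p 1) : JZero (p * M)) = x :=
    congrArg Subtype.val hf
  obtain ⟨h0, h1⟩ := exists_norms_eq_pow_of_eigen hpM
    (fun l _ hGl hd => hGl.1 (dvd_mul_of_dvd_left hd p)) hno f
    (fun l hl hGl => by rw [hfx]; exact R.eigen x hx l hl hGl)
  rw [← hfx]
  exact AtP.normPow_toTorsion hpM f h0 h1

/-- **Lowering at `p` at a level without elliptic points**, for a curve semistable at `p` with
irreducible `E[p]` finite at `p`. -/
theorem lower_noEll (hΔ : W.Δ ≠ 0) (hp2 : p ≠ 2) (hirr : W.ModRepIsIrreducible p)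
    (hsemi : (p : ℤ) ∣ W.Δ → ¬ (p : ℤ) ∣ W.c₄)
    (hfin : (p : ℤ) ∣ W.Δ → p ∣ padicValInt p W.Δ) {M : ℕ} [NeZero M] (hpM : ¬ p ∣ M)
    (hE : nuTwo M = 0 ∧ nuThree M = 0) (hmod : W.IsResiduallyModularOfLevel p (p * M)) :
    W.IsResiduallyModularOfLevel p M := by
  have hp : p.Prime := Fact.out
  have hpM0 : p * M ≠ 0 := mul_ne_zero hp.ne_zero (NeZero.ne M)
  have hgood := good_of_not_mem (W := W) (p := p) hΔ hp.ne_zero hpM0
  by_contra hnot
  have hno : ¬ HasForm p M (Good W p (p * M)) (ap W) := fun h =>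
    hnot (residuallyModular_of_hasForm hΔ hgood h)
  obtain ⟨R⟩ := exists_resSubgroup hΔ hp2 hirr hmod
  obtain ⟨A, hA⟩ := Arith.exists_liesOverPrime hp
  have : CharP (Res A) p := charP_res hA
  have h := setup_of_not_dvd hA hpM
  have : FF.IsFunctionField (Res A) (KM A M) := isFunctionField_KM A h.hM
  have := AtP.nonempty_pt h
  have S : Ctx A p M (Good W p (p * M)) (ap W) :=
    { hA := hA, hp3 := hp.two_le.lt_of_ne' hp2, hpM := hpM, hE := hE
      hG := fun l _ hGl hd => hGl.1 (dvd_mul_of_dvd_left hd _)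
      exists_ne := exists_ap_ne hΔ hp2 hirr hpM0 }
  have hflat := fun x (hx : x ∈ R.U) => R.isFlatClass_of_curve hΔ hp2 hirr hsemi hfin S hno hx
  obtain ⟨τ, hτ, hns⟩ := exists_inertia_not_scalar hΔ hA hp2
  obtain ⟨x, hx, hne⟩ := R.nonscalar τ hns (cyclotomicHom p τ : ZMod p).val
  exact hne (AtP.inertia_smul_eq h R.U (fun σ _ y hy => R.stable σ y hy)
    (fun y hy => OrdinaryAtP.connClass_of_isFlatClass h (hflat y hy))
    (fun y hy => R.normPow hΔ hp2 hirr hpM hno hy) hτ
    (fun ζ hζ => apply_root_eq_pow_cyclotomicHom τ hζ) hx)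

/-- **Lowering at `p`**, `p` odd: `p` is removed from a level it divides exactly, for a curve
semistable at `p` with irreducible `p`-torsion and `p ∣ v_p(Δ)` at bad `p`. -/
theorem lower_at_p (hΔ : W.Δ ≠ 0) (hp2 : p ≠ 2) (hirr : W.ModRepIsIrreducible p)
    (hsemi : (p : ℤ) ∣ W.Δ → ¬ (p : ℤ) ∣ W.c₄)
    (hfin : (p : ℤ) ∣ W.Δ → p ∣ padicValInt p W.Δ) {M : ℕ} (hM : 0 < M) (hpM : p ∣ M)
    (hp2M : ¬ p ^ 2 ∣ M) (hmod : W.IsResiduallyModularOfLevel p M) :
    W.IsResiduallyModularOfLevel p (M / p) := by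
  obtain ⟨N, rfl⟩ := hpM
  rw [Nat.mul_div_cancel_left N (Fact.out : p.Prime).pos]
  exact lower_at_p_of_forall_noEll hΔ hp2 hirr (fun h => hM.ne' (by rw [h, mul_zero]))
    (fun hd => hp2M (by rw [pow_two]; exact mul_dvd_mul_left p hd))
    (fun M _ hpM' hE hm => lower_noEll hΔ hp2 hirr hsemi hfin hpM' hE hm) hmod

end Fermat.Agent.RT.LowerPW

end
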